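import Mathlib
import Fermat.Agent.LT.T2.H291.OpsSpecT
import Fermat.Agent.LT.T2.H841.CommSphere
import Fermat.Agent.LT.T2.H472.LocContLeaf
import Fermat.Agent.LT.T2.H555.CartanInfAdapter

/-!
# Row LT, tower T2, leaf T2.27.18 `SubCommSphereSphereT291` (helper378)

OFF-MAIN.  Two sphere means commute on the cusp functions of the class `(𝔫, τ, r)`.

The proof is the POINTWISE proof of helper841 for `T2.07.18` (files `LT/T2/H841/*.lean`, imported
byte-identical), with ONE change.  A function of the class is right invariant under `SU(2)` at a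
complex place (`τ` is trivial on `SU(2)`: `SubTypeSU2T291`, T2.27.33) but NOT under the positive
scalars at that place, so the average over the annulus `qA` is taken over the NORMALISED
quaternion `nq378 q = qmat (q / √(qN q)) ∈ SU(2)` instead of `qmat q ∈ ℝ_{>0} · SU(2)`:

    psiT378 φ g m = ∫_{qA} φ(g · ι(nq378 q · m)) dq

is left invariant under `SU(2)` (the Lebesgue measure of `ℂ²` and `qN` are invariant under right
multiplication by `SU(2)`), right invariant under `SU(2)`, hence invariant under the transposition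
of real matrices of determinant `≠ 0` (Cartan decomposition, helper555); all matrices which occur
(`rotZ`, `rotY`, `torus`) have determinant `1`.

Inputs taken as hypotheses: `SubSpherePresT291 K` (T2.27.12), `SubTypeSU2T291 K` (T2.27.33).
Closed inputs: `subLocCont472` (helper472), `subCartanInf555` (helper555), the files of helper841.
-/

set_option autoImplicit false
set_option linter.unusedSectionVars false

open IsDedekindDomain NumberField MeasureTheory
open Fermat.Agent.LT.H556.A0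
open Fermat.Agent.LT.T2 Fermat.Agent.LT.T2.H429 Fermat.Agent.LT.T2.H291
open Fermat.Agent.LT.T2.H841

noncomputable section

namespace Fermat.Agent.LT.T2.H378

variable {K : Type} [Field K] [NumberField K]

/-! ## 1. The normalised quaternion -/

/-- `qmat q · (qmat q)ᴴ = qN q`. -/
theorem qmat_mul_conjTranspose378 (q : ℂ × ℂ) :
    qmat q * (qmat q).conjTranspose = ((qN q : ℝ) : ℂ) • (1 : Matrix (Fin 2) (Fin 2) ℂ) := by
  unfold qmat qN
  ext i j
  fin_cases i <;> fin_cases j <;>
  simp [Matrix.mul_apply, Fin.sum_univ_two, Matrix.conjTranspose_apply,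
    Complex.normSq_eq_conj_mul_self] <;> ring

theorem qN_smul378 (r : ℝ) (q : ℂ × ℂ) : qN (r • q) = r ^ 2 * qN q := by
  unfold qN
  simp only [Prod.smul_fst, Prod.smul_snd, Complex.real_smul, Complex.normSq_mul,
    Complex.normSq_ofReal]
  ring

/-- The normalised vector `q / √(qN q)`. -/
def nv378 (q : ℂ × ℂ) : ℂ × ℂ := ((Real.sqrt (qN q))⁻¹ : ℝ) • q

/-- The normalised quaternion, an element of `SU(2)` for `q ≠ 0`. -/
def nq378 (q : ℂ × ℂ) : Matrix (Fin 2) (Fin 2) ℂ := qmat (nv378 q)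

theorem qN_nv378 {q : ℂ × ℂ} (hq : 0 < qN q) : qN (nv378 q) = 1 := by
  unfold nv378
  rw [qN_smul378, inv_pow, Real.sq_sqrt hq.le]
  exact inv_mul_cancel₀ hq.ne'

theorem nq_unitary378 {q : ℂ × ℂ} (hq : 0 < qN q) :
    nq378 q * (nq378 q).conjTranspose = 1 := by
  unfold nq378
  rw [qmat_mul_conjTranspose378, qN_nv378 hq]
  simp

theorem det_nq378 {q : ℂ × ℂ} (hq : 0 < qN q) : (nq378 q).det = 1 := by
  unfold nq378
  rw [det_qmat, qN_nv378 hq]
  simp

theorem det_nq_ne378 {q : ℂ × ℂ} (hq : 0 < qN q) : (nq378 q).det ≠ 0 := by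
  rw [det_nq378 hq]; exact one_ne_zero

theorem nq_qT378 (a c : ℂ) (h : Complex.normSq a + Complex.normSq c = 1) (q : ℂ × ℂ) :
    nq378 (qT a c q) = nq378 q * suMat a c := by
  unfold nq378 nv378
  rw [qN_qT a c h, ← qmat_qT, map_smul]

theorem continuousOn_nq378 : ContinuousOn nq378 qA := by
  unfold nq378 nv378
  have h1 : ContinuousOn (fun q : ℂ × ℂ => ((Real.sqrt (qN q))⁻¹ : ℝ)) qA := by
    refine ContinuousOn.inv₀ (Real.continuous_sqrt.comp continuous_qN).continuousOn ?_
    intro q hq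
    exact (Real.sqrt_pos.mpr (qN_pos_of_mem hq)).ne'
  have h2 : ContinuousOn (fun q : ℂ × ℂ => ((Real.sqrt (qN q))⁻¹ : ℝ) • q) qA :=
    h1.smul continuousOn_id
  exact continuous_qmat.comp_continuousOn h2

section

variable (w : InfinitePlace K) (hw : w.IsComplex)

/-! ## 2. The averaged function -/

theorem det_nq_mul_ne378 {q : ℂ × ℂ} (hq : q ∈ qA) {m : Matrix (Fin 2) (Fin 2) ℂ}
    (hm : m.det ≠ 0) : (nq378 q * m).det ≠ 0 := by
  rw [Matrix.det_mul]
  exact mul_ne_zero (det_nq_ne378 (qN_pos_of_mem hq)) hm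

/-- `q ↦ ι(nq378 q · m)` is continuous on the annulus. -/
theorem continuousOn_iota_nq378 {m : Matrix (Fin 2) (Fin 2) ℂ} (hm : m.det ≠ 0) :
    ContinuousOn (fun q : ℂ × ℂ => iota841 w hw (nq378 q * m)) qA := by
  rw [continuousOn_iff_continuous_domRestrict]
  refine H472.subLocCont472 K w qA (qA.domRestrict fun q => iota841 w hw (nq378 q * m))
    (fun q => isLocalAtInf_iota841 w hw _) (fun i j => ?_)
  have h : (fun q : qA => infComp w (qA.domRestrict (fun q => iota841 w hw (nq378 q * m)) q) i j)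
      = fun q : qA => (nq378 q.1 * m) i j := by
    funext q
    rw [Set.domRestrict_apply, infComp_iota841 w hw (det_nq_mul_ne378 q.2 hm)]
  rw [h]
  have h3 : Continuous fun q : qA => nq378 q.1 :=
    continuousOn_nq378.comp_continuous continuous_subtype_val (fun q => q.2)
  exact (h3.matrix_mul continuous_const).matrix_elem i j

theorem continuousOn_iota_nq_one378 :
    ContinuousOn (fun q : ℂ × ℂ => iota841 w hw (nq378 q)) qA := by
  have h := continuousOn_iota_nq378 w hw (m := 1) (by simp)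
  simpa only [mul_one] using h

/-- The averaged function. -/
def psiT378 (φ : G K → ℂ) (g : G K) (m : Matrix (Fin 2) (Fin 2) ℂ) : ℂ :=
  ∫ q in qA, φ (g * iota841 w hw (nq378 q * m))

/-- Right invariance under `SU(2)`. -/
theorem psiT_mul_su378 {φ : G K → ℂ}
    (hφ : ∀ k : Matrix (Fin 2) (Fin 2) ℂ, k * k.conjTranspose = 1 → k.det = 1 →
      ∀ g : G K, φ (g * iota841 w hw k) = φ g) (g : G K)
    {m : Matrix (Fin 2) (Fin 2) ℂ} (hm : m.det ≠ 0) {k : Matrix (Fin 2) (Fin 2) ℂ}
    (hk : k * k.conjTranspose = 1) (hd : k.det = 1) :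
    psiT378 w hw φ g (m * k) = psiT378 w hw φ g m := by
  unfold psiT378
  refine setIntegral_congr_fun measurableSet_qA (fun q hq => ?_)
  show φ (g * iota841 w hw (nq378 q * (m * k))) = φ (g * iota841 w hw (nq378 q * m))
  rw [← mul_assoc, iota841_mul w hw (det_nq_mul_ne378 hq hm) (det_ne_zero_of_unitary841 hk),
    ← mul_assoc]
  exact hφ k hk hd _

/-- Left invariance under `SU(2)`, in the form `suMat`. -/
theorem psiT_suMat_mul378 (φ : G K → ℂ) (g : G K) (a c : ℂ)
    (h : Complex.normSq a + Complex.normSq c = 1) (m : Matrix (Fin 2) (Fin 2) ℂ) :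
    psiT378 w hw φ g (suMat a c * m) = psiT378 w hw φ g m := by
  unfold psiT378
  have h1 := setIntegral_qA_comp_qT a c h (fun q => φ (g * iota841 w hw (nq378 q * m)))
  rw [← h1]
  refine setIntegral_congr_fun measurableSet_qA (fun q _ => ?_)
  show φ (g * iota841 w hw (nq378 q * (suMat a c * m)))
    = φ (g * iota841 w hw (nq378 (qT a c q) * m))
  rw [nq_qT378 a c h, mul_assoc]

/-- Left invariance under `SU(2)`. -/
theorem psiT_su_mul378 (φ : G K → ℂ) (g : G K) {k : Matrix (Fin 2) (Fin 2) ℂ}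
    (hk : k * k.conjTranspose = 1) (hd : k.det = 1) (m : Matrix (Fin 2) (Fin 2) ℂ) :
    psiT378 w hw φ g (k * m) = psiT378 w hw φ g m := by
  obtain ⟨hs, hn⟩ := su_shape841 hk hd
  rw [hs]
  exact psiT_suMat_mul378 w hw φ g _ _ hn m

/-- Invariance under the transposition of real matrices (Cartan decomposition). -/
theorem psiT_transpose378 {φ : G K → ℂ}
    (hφ : ∀ k : Matrix (Fin 2) (Fin 2) ℂ, k * k.conjTranspose = 1 → k.det = 1 →
      ∀ g : G K, φ (g * iota841 w hw k) = φ g) (g : G K)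
    {X : Matrix (Fin 2) (Fin 2) ℂ} (hX : X.det ≠ 0) (hr : ∀ i j, (X i j).im = 0) :
    psiT378 w hw φ g X.transpose = psiT378 w hw φ g X := by
  obtain ⟨k₁, k₂, a, b, hk₁, hk₂, hXe, hreal⟩ := H555.subCartanInf555 X hX
  obtain ⟨-, -, hd₁, hd₂, -, -⟩ := hreal hr
  have hD : (Matrix.diagonal ![a, b]).det ≠ 0 := by
    intro h0
    apply hX
    rw [hXe, Matrix.det_mul, Matrix.det_mul, h0]
    simp
  have e1 : psiT378 w hw φ g X = psiT378 w hw φ g (Matrix.diagonal ![a, b]) := by
    rw [hXe, mul_assoc, psiT_su_mul378 w hw φ g hk₁ hd₁,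
      psiT_mul_su378 w hw hφ g hD hk₂ hd₂]
  have hT : X.transpose = k₂.transpose * (Matrix.diagonal ![a, b] * k₁.transpose) := by
    rw [hXe, Matrix.transpose_mul, Matrix.transpose_mul, Matrix.diagonal_transpose]
  have e2 : psiT378 w hw φ g X.transpose = psiT378 w hw φ g (Matrix.diagonal ![a, b]) := by
    rw [hT, psiT_su_mul378 w hw φ g (conjTranspose_transpose_unitary841 hk₂)
        (by rw [Matrix.det_transpose]; exact hd₂),
      psiT_mul_su378 w hw hφ g hD (conjTranspose_transpose_unitary841 hk₁)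
        (by rw [Matrix.det_transpose]; exact hd₁)]
  rw [e1, e2]

theorem det_dmatInv378 : dmatInv841.det = 1 := by
  unfold dmatInv841
  rw [Matrix.det_fin_two_of]
  simp

/-- **Symmetry** of the averaged function on the middle matrices. -/
theorem psiT_mid_symm378 {φ : G K → ℂ}
    (hφ : ∀ k : Matrix (Fin 2) (Fin 2) ℂ, k * k.conjTranspose = 1 → k.det = 1 →
      ∀ g : G K, φ (g * iota841 w hw k) = φ g) (g : G K) (d β d' : ℝ) :
    psiT378 w hw φ g (midM841 d β d') = psiT378 w hw φ g (midM841 d' β d) := by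
  have hdet : ∀ x y z : ℝ, (midM841 x y z).det ≠ 0 := fun x y z => by
    rw [det_midM841]; exact one_ne_zero
  rw [← psiT_transpose378 w hw hφ g (hdet d β d') (midM841_real d β d'),
    midM841_transpose, mul_assoc]
  unfold dmat841
  rw [psiT_suMat_mul378 w hw φ g _ _ normSq_dmat841,
    psiT_mul_su378 w hw hφ g (hdet d' β d) dmatInv841_unitary det_dmatInv378]

/-- The averaged function on a product of two sphere matrices. -/
theorem psiT_sph_mul378 (φ : G K → ℂ) (g : G K) (d d' α β α' β' : ℝ) :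
    psiT378 w hw φ g (sphM841 d α β * sphM841 d' α' β')
      = psiT378 w hw φ g (midM841 d β' d') := by
  have e : sphM841 d α β * sphM841 d' α' β'
      = rotZ α * (rotY β * (rotZ α' * midM841 d β' d')) := by
    unfold sphM841 midM841
    have h := rotZ_mul_torus841 α' d
    calc rotZ α * rotY β * torus d * (rotZ α' * rotY β' * torus d')
        = rotZ α * rotY β * ((torus d * rotZ α') * rotY β' * torus d') := by
          simp only [mul_assoc]
      _ = rotZ α * rotY β * ((rotZ α' * torus d) * rotY β' * torus d') := by rw [h]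
      _ = rotZ α * (rotY β * (rotZ α' * (torus d * rotY β' * torus d'))) := by
          simp only [mul_assoc]
  rw [e, rotZ_eq_suMat841 α, psiT_suMat_mul378 w hw φ g _ _ (normSq_rotZ841 α),
    rotY_eq_suMat841 β, psiT_suMat_mul378 w hw φ g _ _ (normSq_rotY841 β),
    rotZ_eq_suMat841 α', psiT_suMat_mul378 w hw φ g _ _ (normSq_rotZ841 α')]

/-! ## 3. The class -/

/-- A function of the class is right invariant under `SU(2)` at the complex place `w`. -/
theorem su_inv378 (hS : SubTypeSU2T291 K) {𝔫 : Ideal (𝓞 K)} {τ : G K → ℂ} (hτ : IsKType τ)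
    {r : G K} {Q : G K → ℂ} (hQ : IsCuspT 𝔫 τ r Q) (k : Matrix (Fin 2) (Fin 2) ℂ)
    (hk : k * k.conjTranspose = 1) (hd : k.det = 1) (g : G K) :
    Q (g * iota841 w hw k) = Q g := by
  have hc : IsArchCompact w (iota841 w hw k) := isArchCompact_iota841 w hw hk
  have h1 : τ (iota841 w hw k) = 1 := by
    refine hS τ hτ w hw _ hc ?_
    rw [infComp_iota841 w hw (det_ne_zero_of_unitary841 hk)]
    exact hd
  rw [hQ.aut.arch_compact w _ hc g, h1, one_mul]

/-- A function of the class is invariant under `ι(nq378 q)`, `q` in the annulus. -/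
theorem avg_cuspT378 (hS : SubTypeSU2T291 K) {𝔫 : Ideal (𝓞 K)} {τ : G K → ℂ} (hτ : IsKType τ)
    {r : G K} {Q : G K → ℂ} (hQ : IsCuspT 𝔫 τ r Q) (g : G K) {q : ℂ × ℂ} (hq : q ∈ qA) :
    Q (g * iota841 w hw (nq378 q)) = Q g :=
  su_inv378 w hw hS hτ hQ _ (nq_unitary378 (qN_pos_of_mem hq)) (det_nq378 (qN_pos_of_mem hq)) g

/-- **Key formula**: `vol(qA) · (M_Y M_Y' φ)(g)` in terms of the averaged function. -/
theorem keyT378 (hP : SubSpherePresT291 K) (hS : SubTypeSU2T291 K) {𝔫 : Ideal (𝓞 K)}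
    {τ : G K → ℂ} (c : CtxT291 K 𝔫 τ) (R : FrameR K) {φ : G K → ℂ} (hφ : IsCuspT 𝔫 τ R.r φ)
    {d d' : ℝ} (hd : 0 < d) (hd' : 0 < d')
    {Y Y' : ℝ → ℝ → G K} (hY : IsSphereAt w d Y) (hY' : IsSphereAt w d' Y') (g : G K) :
    ((((volume : Measure (ℂ × ℂ)) qA).toReal : ℝ) : ℂ) * sphereMean Y (sphereMean Y' φ) g
      = ∫ α in (0 : ℝ)..(2 * Real.pi), ∫ β in (0 : ℝ)..Real.pi,
          (∫ α' in (0 : ℝ)..(2 * Real.pi), ∫ β' in (0 : ℝ)..Real.pi,
            psiT378 w hw φ g (midM841 d β' d') * ((Real.sin β' : ℝ) : ℂ))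
          * ((Real.sin β : ℝ) : ℂ) := by
  have hL : SubLocCont429 K := H472.subLocCont472 K
  have h1 : IsCuspT 𝔫 τ R.r (sphereMean Y' φ) := hP 𝔫 τ c R w hw d' hd' Y' hY' φ hφ
  have h2 : IsCuspT 𝔫 τ R.r (sphereMean Y (sphereMean Y' φ)) :=
    hP 𝔫 τ c R w hw d hd Y hY _ h1
  have s1 : (∫ q in qA, sphereMean Y (sphereMean Y' φ) (g * iota841 w hw (nq378 q)))
      = ((((volume : Measure (ℂ × ℂ)) qA).toReal : ℝ) : ℂ)
        * sphereMean Y (sphereMean Y' φ) g := by
    rw [setIntegral_congr_fun measurableSet_qA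
        (fun q hq => avg_cuspT378 w hw hS c.kt h2 g hq), setIntegral_const]
    simp [Measure.real, Complex.real_smul]
  rw [← s1, fubini_sphere841 w hL h1.aut.cont h1.aut.bdd
    (H₁ := fun q => g * iota841 w hw (nq378 q))
    (continuous_const.continuousOn.mul (continuousOn_iota_nq_one378 w hw)) hY]
  refine intervalIntegral.integral_congr fun α _ => ?_
  refine intervalIntegral.integral_congr fun β _ => ?_
  show (∫ q in qA, sphereMean Y' φ (g * iota841 w hw (nq378 q) * Y α β))
      * ((Real.sin β : ℝ) : ℂ) = _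
  congr 1
  have hH : ContinuousOn (fun q : ℂ × ℂ => g * iota841 w hw (nq378 q) * Y α β) qA :=
    (continuous_const.continuousOn.mul (continuousOn_iota_nq_one378 w hw)).mul
      continuous_const.continuousOn
  rw [fubini_sphere841 w hL hφ.aut.cont hφ.aut.bdd
    (H₁ := fun q => g * iota841 w hw (nq378 q) * Y α β) hH hY']
  refine intervalIntegral.integral_congr fun α' _ => ?_
  refine intervalIntegral.integral_congr fun β' _ => ?_
  show (∫ q in qA, φ (g * iota841 w hw (nq378 q) * Y α β * Y' α' β'))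
      * ((Real.sin β' : ℝ) : ℂ) = _
  congr 1
  rw [← psiT_sph_mul378 w hw φ g d d' α β α' β']
  unfold psiT378
  refine setIntegral_congr_fun measurableSet_qA (fun q hq => ?_)
  show φ (g * iota841 w hw (nq378 q) * Y α β * Y' α' β')
    = φ (g * iota841 w hw (nq378 q * (sphM841 d α β * sphM841 d' α' β')))
  have hS' : (sphM841 d α β * sphM841 d' α' β').det ≠ 0 := by
    rw [Matrix.det_mul]
    exact mul_ne_zero (det_sphM841_ne _ _ _) (det_sphM841_ne _ _ _)
  rw [iota841_mul w hw (det_nq_ne378 (qN_pos_of_mem hq)) hS',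
    iota841_mul w hw (det_sphM841_ne _ _ _) (det_sphM841_ne _ _ _),
    sphere_eq_iota841 w hw hY, sphere_eq_iota841 w hw hY']
  simp only [mul_assoc]

include hw in
/-- Two sphere means at the SAME complex place commute on the cusp functions of the class. -/
theorem comm_sameT378 (hP : SubSpherePresT291 K) (hS : SubTypeSU2T291 K) {𝔫 : Ideal (𝓞 K)}
    {τ : G K → ℂ} (c : CtxT291 K 𝔫 τ) (R : FrameR K) {φ : G K → ℂ} (hφ : IsCuspT 𝔫 τ R.r φ)
    {d d' : ℝ} (hd : 0 < d) (hd' : 0 < d') {Y Y' : ℝ → ℝ → G K} (hY : IsSphereAt w d Y)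
    (hY' : IsSphereAt w d' Y') (g : G K) :
    sphereMean Y (sphereMean Y' φ) g = sphereMean Y' (sphereMean Y φ) g := by
  have k1 := keyT378 w hw hP hS c R hφ hd hd' hY hY' g
  have k2 := keyT378 w hw hP hS c R hφ hd' hd hY' hY g
  have hsym : ∀ β' : ℝ, psiT378 w hw φ g (midM841 d β' d')
      = psiT378 w hw φ g (midM841 d' β' d) :=
    fun β' => psiT_mid_symm378 w hw (fun k hk hdk g' => su_inv378 w hw hS c.kt hφ k hk hdk g')
      g d β' d'
  simp only [hsym] at k1
  have hv : ((((volume : Measure (ℂ × ℂ)) qA).toReal : ℝ) : ℂ) ≠ 0 := by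
    have := ENNReal.toReal_pos volume_qA_pos.ne' volume_qA_lt_top.ne
    exact_mod_cast this.ne'
  exact mul_left_cancel₀ hv (k1.trans k2.symm)

end

/-- **LEAF T2.27.18** `SubCommSphereSphereT291`, from the sub-leaves T2.27.12
(`SubSpherePresT291`) and T2.27.33 (`SubTypeSU2T291`). -/
theorem subCommSphereSphereT378 (hP : SubSpherePresT291 K) (hS : SubTypeSU2T291 K) :
    SubCommSphereSphereT291 K := by
  intro 𝔫 τ c R w hw d hd Y hY w' hw' d' hd' Y' hY' φ hφ
  funext g
  by_cases hww : w = w'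
  · subst hww
    exact comm_sameT378 w hw hP hS c R hφ hd hd' hY hY' g
  · exact comm_diff841 (H472.subLocCont472 K) hww hφ.aut.cont hφ.aut.bdd hY hY' g

end Fermat.Agent.LT.T2.H378

end
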